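/-
S55 / block DICT : INDEX of the skeleton.  The statements live in the stubs `Dict/WIP/<Name>.lean`
(one stub = one task = one final file `Dict/<Name>.lean`, same names, same namespace).
  Close      pure valuation-ring algebra for `Close B q n x y`
  Fix        `Finite (GQ ⧸ fixG K)`, fixed points of `fixG K` come from `K`
  Below      places of `K` versus valuation subrings of `ℚ̄` (existence, transitivity)
  BelowVal   `v.valuation` versus `B` (C1, C2, towers)
  Invariant  A1 (pure algebra)                                 [helper56]
  Dense      A2, A4, A3, M1 (density of `K` in its henselisations) [helper56]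
  Root       `p`-th roots of elements close to `1`
  RootFixed  O1, O2
  Orbit      `D`-invariant functions on a `G`-set
  Glob       global elements `glob K a`
  Norm       push / pull along `X_L → X_K`
  LocNormA   E1a     LocNormB  E1b     LocNormC  E1c, E2     LocPow  E3a, E3b
FINAL LAYER (definitions: `Dict/FinalDefs.lean`: pl, IsNormFrom, CT, NonsplitAt, KumStep, NITOut,
LocNonNorm):
  Field      open subgroups of `GQ` <-> number fields inside `ℚ̄`; `Kum K L p ↔ KumStep p U_L U_K`
  Split      one prime above `v` <-> the decomposition group is transitive on the fibre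
  Wild       `NIT.WildInput p K` from `LocNonNorm p`
  Hasse      N3 field-free        Index  N1 field-free        Nonsplit  N5 field-free
  LocalGroup `Gv q`-invariants = `Dec (pl q)`-invariants; `LocNonNorm` from (AR4) of `Loc.LocalInput`
-/
import Fermat.Agent.S55.Dict.WIP.Close
import Fermat.Agent.S55.Dict.WIP.Fix
import Fermat.Agent.S55.Dict.WIP.Below
import Fermat.Agent.S55.Dict.WIP.BelowVal
import Fermat.Agent.S55.Dict.WIP.Invariant
import Fermat.Agent.S55.Dict.WIP.Dense
import Fermat.Agent.S55.Dict.WIP.Root
import Fermat.Agent.S55.Dict.WIP.RootFixed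
import Fermat.Agent.S55.Dict.WIP.Orbit
import Fermat.Agent.S55.Dict.WIP.Glob
import Fermat.Agent.S55.Dict.WIP.Norm
import Fermat.Agent.S55.Dict.WIP.LocNormA
import Fermat.Agent.S55.Dict.WIP.LocNormB
import Fermat.Agent.S55.Dict.WIP.LocNormC
import Fermat.Agent.S55.Dict.WIP.LocPow
import Fermat.Agent.S55.Dict.WIP.Field
import Fermat.Agent.S55.Dict.WIP.Split
import Fermat.Agent.S55.Dict.WIP.Wild
import Fermat.Agent.S55.Dict.WIP.Hasse
import Fermat.Agent.S55.Dict.WIP.Index
import Fermat.Agent.S55.Dict.WIP.Nonsplit
import Fermat.Agent.S55.Dict.WIP.LocalGroup
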